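import Mathlib
import Fermat.Agent.LT.H556.A0
import Fermat.Agent.LT.T1.Spec
import Fermat.Agent.LT.T2.Spec
import Fermat.Agent.LT.T2.SpecTau

/-!
# Row LT, tower T2, leaf T2.25 (`LeafT05`: `GPST ⇒ ConvRegularT`, class of T5) -- helper799, OFF-MAIN

Spec: `Fermat/Agent/LT/T2/SpecTau.lean` (helper130@e2e090185, sha256 4d2b0fc2), ADDITIVE to
`LT/T2/Spec.lean` v3 (sha256 b934629a); vocabulary `LT/H556/A0.lean` (66d3374a),
`LT/T1/Spec.lean` (e8ae48d6), byte-identical copies.  Imports: Mathlib + these four files only.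
Nothing is assumed, no placeholder proof.

This is the proof of T2.05 (helper131, `LT/T2/H131/Leaf05.lean`) with the class `(𝔫, τ, r)` in
place of the class of A0; the general lemmas are restated here under fresh names so that the file
depends on the Spec files only.

Proof.  Let `φ k` be an `L²`-Cauchy sequence of cusp functions of the class and
`ψs k = R(f) (φ k)`.
* `IsCuspT` is stable under differences (`isCuspT_sub_h799`): `τ`-equivariance and the invariance
  under `r` are linear conditions; the constant-term integrand is bounded and continuous, and every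
  fundamental domain of `K` in `𝔸_K` has finite measure.
* `R(f)` is additive on continuous functions (`convT_sub_h799`).
* By `GPST`, `sup |ψs k - ψs l| ≤ C ‖φ k - φ l‖₂`: the sequence `ψs` is uniformly Cauchy, hence
  converges uniformly to some `ψ`.
* A uniform limit of cusp functions of the class is a cusp function of the class
  (`isCuspT_of_tendstoUniformly_h799`).
* `‖ψs k - ψ‖₂² ≤ sup |ψs k - ψ|² · μ(D) → 0` (`abs_nsqT_le_h799`, `Frame.fin`).
Only `T1Out.addFundDom`, `ConvCuspT` (third component) and `GPST` are used; `𝔫 ≠ ⊥`, `IsKType τ`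
and `PairDefiniteT` are not.
-/

set_option autoImplicit false
set_option linter.style.haveILetI false

open IsDedekindDomain NumberField MeasureTheory AutomorphicForm
open Fermat.Agent.LT.H556.A0

noncomputable section

namespace Fermat.Agent.LT.T2.H799

attribute [local instance] Fermat.Agent.LT.T2.borelG

variable {K : Type} [Field K] [NumberField K]

/-- The Borel structure of the adeles (the one of `A0.IsCuspidalFn`, `T1.AddFundDomC`). -/
local instance borelAdl_h799 : MeasurableSpace (Adl K) := borel (Adl K)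

local instance borelSpaceAdl_h799 : BorelSpace (Adl K) := ⟨rfl⟩

local instance borelSpaceG_h799 : BorelSpace (G K) := ⟨rfl⟩

/-- A number field is countable. -/
theorem countable_numberField_h799 (K : Type) [Field K] [NumberField K] : Countable K := by
  have e := (Module.finBasis ℚ K).equivFun
  exact Countable.of_equiv _ e.toEquiv.symm

/-- The unipotent section `x ↦ n(x)` is continuous. -/
theorem continuous_unip_h799 (n : Adl K → G K)
    (hn : ∀ x : Adl K, (n x : Matrix (Fin 2) (Fin 2) (Adl K)) = !![1, x; 0, 1]) :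
    Continuous n := by
  rw [Units.continuous_iff]
  constructor
  · have : (Units.val ∘ n) = fun x : Adl K => (!![1, x; 0, 1] : Matrix (Fin 2) (Fin 2) (Adl K)) := by
      funext x
      exact hn x
    rw [this]
    refine continuous_matrix fun i j => ?_
    fin_cases i <;> fin_cases j <;> simp <;> fun_prop
  · have : (fun x : Adl K => (((n x)⁻¹ : G K) : Matrix (Fin 2) (Fin 2) (Adl K)))
        = fun x : Adl K => (!![1, -x; 0, 1] : Matrix (Fin 2) (Fin 2) (Adl K)) := by
      funext x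
      apply Units.inv_eq_of_mul_eq_one_right
      rw [hn x]
      ext i j
      fin_cases i <;> fin_cases j <;> simp [Matrix.mul_apply, Fin.sum_univ_two]
    rw [this]
    refine continuous_matrix fun i j => ?_
    fin_cases i <;> fin_cases j <;> simp <;> fun_prop

/-- Every fundamental domain of `K` in `𝔸_K` has finite measure. -/
theorem addFundDom_measure_lt_top_h799 (hFD : T1.AddFundDomC K)
    (μ : Measure (Adl K)) (hμ : μ.IsAddHaarMeasure) (D : Set (Adl K))
    (hD : IsAddFundamentalDomain ((algebraMap K (Adl K)).toAddMonoidHom.range) D μ) :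
    μ D < ⊤ := by
  obtain ⟨D₀, -, hD₀, -, -, hfin⟩ := hFD μ hμ
  haveI : Countable K := countable_numberField_h799 K
  haveI : Countable ((algebraMap K (Adl K)).toAddMonoidHom.range) := by
    have : Countable (Set.range (algebraMap K (Adl K)).toAddMonoidHom) :=
      (Set.countable_range _).to_subtype
    exact this
  have hD₀' : IsAddFundamentalDomain ((algebraMap K (Adl K)).toAddMonoidHom.range) D₀ μ := hD₀
  rw [hD.measure_eq hD₀']
  exact hfin

/-- The constant-term integrand of a bounded continuous function is integrable on every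
fundamental domain. -/
theorem integrableOn_constTerm_h799 (hFD : T1.AddFundDomC K) {φ : G K → ℂ}
    (hc : Continuous φ) (hb : ∃ C : ℝ, ∀ g : G K, ‖φ g‖ ≤ C)
    (μ : Measure (Adl K)) (hμ : μ.IsAddHaarMeasure) (D : Set (Adl K))
    (hD : IsAddFundamentalDomain ((algebraMap K (Adl K)).toAddMonoidHom.range) D μ)
    (n : Adl K → G K)
    (hn : ∀ x : Adl K, (n x : Matrix (Fin 2) (Fin 2) (Adl K)) = !![1, x; 0, 1]) (g : G K) :
    IntegrableOn (fun x => φ (n x * g)) D μ := by
  obtain ⟨C, hC⟩ := hb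
  have hfin : μ D < ⊤ := addFundDom_measure_lt_top_h799 hFD μ hμ D hD
  have hcont : Continuous fun x => φ (n x * g) :=
    hc.comp ((continuous_unip_h799 n hn).mul continuous_const)
  haveI : IsFiniteMeasure (μ.restrict D) := ⟨by rwa [Measure.restrict_apply_univ]⟩
  exact Integrable.of_bound hcont.aestronglyMeasurable C (Filter.Eventually.of_forall fun x => hC _)

/-- The cuspidality condition in unfolded form (with the Borel structure as an instance). -/
theorem isCuspidalFn_iff_h799 (φ : G K → ℂ) :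
    IsCuspidalFn φ ↔ ∀ μ : Measure (Adl K), μ.IsAddHaarMeasure →
      ∀ D : Set (Adl K),
        IsAddFundamentalDomain ((algebraMap K (Adl K)).toAddMonoidHom.range) D μ →
        ∀ n : Adl K → G K,
          (∀ x : Adl K, (n x : Matrix (Fin 2) (Fin 2) (Adl K)) = !![1, x; 0, 1]) →
          ∀ g : G K, ∫ x in D, φ (n x * g) ∂μ = 0 :=
  Iff.rfl

/-- The difference of two automorphic functions of the class is in the class. -/
theorem isAutT_sub_h799 {𝔫 : Ideal (𝓞 K)} {τ : G K → ℂ} {r : G K} {φ ψ : G K → ℂ}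
    (hφ : IsAutT 𝔫 τ r φ) (hψ : IsAutT 𝔫 τ r ψ) : IsAutT 𝔫 τ r (fun g => φ g - ψ g) := by
  refine ⟨hφ.cont.sub hψ.cont, ?_, ?_, ?_, ?_, ?_⟩
  · obtain ⟨C₁, h₁⟩ := hφ.bdd
    obtain ⟨C₂, h₂⟩ := hψ.bdd
    exact ⟨C₁ + C₂, fun g => (norm_sub_le _ _).trans (add_le_add (h₁ g) (h₂ g))⟩
  · intro γ g
    simp only [hφ.left_inv γ g, hψ.left_inv γ g]
  · intro u hu g
    simp only [hφ.level_inv u hu g, hψ.level_inv u hu g]
  · intro w k hk g
    simp only [hφ.arch_compact w k hk g, hψ.arch_compact w k hk g, mul_sub]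
  · intro g
    simp only [hφ.ray g, hψ.ray g]

/-- The difference of two cusp functions of the class is a cusp function of the class. -/
theorem isCuspT_sub_h799 (hFD : T1.AddFundDomC K) {𝔫 : Ideal (𝓞 K)} {τ : G K → ℂ} {r : G K}
    {φ ψ : G K → ℂ} (hφ : IsCuspT 𝔫 τ r φ) (hψ : IsCuspT 𝔫 τ r ψ) :
    IsCuspT 𝔫 τ r (fun g => φ g - ψ g) := by
  refine ⟨isAutT_sub_h799 hφ.aut hψ.aut, ?_⟩
  rw [isCuspidalFn_iff_h799]
  intro μ hμ D hD n hn g
  have h₁ := integrableOn_constTerm_h799 hFD hφ.aut.cont hφ.aut.bdd μ hμ D hD n hn g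
  have h₂ := integrableOn_constTerm_h799 hFD hψ.aut.cont hψ.aut.bdd μ hμ D hD n hn g
  rw [integral_sub h₁ h₂, (isCuspidalFn_iff_h799 φ).1 hφ.cuspidal μ hμ D hD n hn g,
    (isCuspidalFn_iff_h799 ψ).1 hψ.cuspidal μ hμ D hD n hn g, sub_zero]

/-- The integrand of the convolution is integrable (continuous with compact support). -/
theorem integrable_convT_h799 {𝔫 : Ideal (𝓞 K)} {τ : G K → ℂ} (F : Frame K)
    {f φ : G K → ℂ} (hf : IsTestT 𝔫 τ f) (hc : Continuous φ) (x : G K) :
    Integrable (fun h => φ (x * h) * f h) F.μ := by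
  haveI := F.haar
  have hcont : Continuous fun h => φ (x * h) * f h :=
    (hc.comp (continuous_const.mul continuous_id)).mul hf.cont
  have hcs : HasCompactSupport fun h => φ (x * h) * f h :=
    HasCompactSupport.mul_left (f := fun h => φ (x * h)) hf.cpt
  exact hcont.integrable_of_hasCompactSupport hcs

/-- The convolution is additive on continuous functions (difference form). -/
theorem convT_sub_h799 {𝔫 : Ideal (𝓞 K)} {τ : G K → ℂ} (F : Frame K)
    {f φ ψ : G K → ℂ} (hf : IsTestT 𝔫 τ f) (hφ : Continuous φ) (hψ : Continuous ψ) (x : G K) :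
    conv F f (fun g => φ g - ψ g) x = conv F f φ x - conv F f ψ x := by
  unfold conv
  rw [← integral_sub (integrable_convT_h799 F hf hφ x) (integrable_convT_h799 F hf hψ x)]
  congr 1
  funext y
  ring

/-- `nsq` of a uniformly small function is small. -/
theorem abs_nsqT_le_h799 (F : Frame K) {h : G K → ℂ} {ε : ℝ}
    (hh : ∀ g : G K, ‖h g‖ ≤ ε) : |nsq F h| ≤ ε * ε * F.μ.real F.D := by
  unfold nsq pair
  refine (Complex.abs_re_le_norm _).trans ?_
  refine norm_setIntegral_le_of_norm_le_const F.fin ?_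
  intro g _
  have h0 : 0 ≤ ε := (norm_nonneg _).trans (hh g)
  rw [norm_mul, RCLike.norm_conj]
  exact mul_le_mul (hh g) (hh g) (norm_nonneg _) h0

/-- **Uniform limits of automorphic functions of the class are in the class.** -/
theorem isAutT_of_tendstoUniformly_h799 {𝔫 : Ideal (𝓞 K)} {τ : G K → ℂ} {r : G K}
    {ψs : ℕ → G K → ℂ} {ψ : G K → ℂ} (hψs : ∀ k, IsAutT 𝔫 τ r (ψs k))
    (hu : TendstoUniformly ψs ψ Filter.atTop) : IsAutT 𝔫 τ r ψ := by
  have hlim : ∀ x : G K, Filter.Tendsto (fun k => ψs k x) Filter.atTop (nhds (ψ x)) :=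
    fun x => hu.tendsto_at x
  have hunif : ∀ ε > 0, ∃ N : ℕ, ∀ k ≥ N, ∀ x : G K, ‖ψ x - ψs k x‖ < ε := by
    intro ε hε
    have := (Metric.tendstoUniformly_iff.1 hu) ε hε
    obtain ⟨N, hN⟩ := Filter.eventually_atTop.1 this
    exact ⟨N, fun k hk x => by simpa [dist_eq_norm] using hN k hk x⟩
  have hcont : Continuous ψ :=
    hu.continuous (Filter.Frequently.of_forall fun k => (hψs k).cont)
  have hbdd : ∃ C : ℝ, ∀ g : G K, ‖ψ g‖ ≤ C := by
    obtain ⟨N, hN⟩ := hunif 1 one_pos
    obtain ⟨C, hC⟩ := (hψs N).bdd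
    refine ⟨1 + C, fun g => ?_⟩
    have h1 := (hN N le_rfl g).le
    have h2 := hC g
    calc ‖ψ g‖ = ‖(ψ g - ψs N g) + ψs N g‖ := by rw [sub_add_cancel]
      _ ≤ ‖ψ g - ψs N g‖ + ‖ψs N g‖ := norm_add_le _ _
      _ ≤ 1 + C := add_le_add h1 h2
  refine ⟨hcont, hbdd, ?_, ?_, ?_, ?_⟩
  · intro γ g
    refine tendsto_nhds_unique (hlim _) ((hlim g).congr fun k => ?_)
    exact ((hψs k).left_inv γ g).symm
  · intro u hu' g
    refine tendsto_nhds_unique (hlim _) ((hlim g).congr fun k => ?_)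
    exact ((hψs k).level_inv u hu' g).symm
  · intro w k' hk g
    refine tendsto_nhds_unique (hlim _) (((hlim g).const_mul (τ k')).congr fun k => ?_)
    exact ((hψs k).arch_compact w k' hk g).symm
  · intro g
    refine tendsto_nhds_unique (hlim _) ((hlim g).congr fun k => ?_)
    exact ((hψs k).ray g).symm

/-- **Uniform limits of cusp functions of the class are cusp functions of the class.** -/
theorem isCuspT_of_tendstoUniformly_h799 (hFD : T1.AddFundDomC K) {𝔫 : Ideal (𝓞 K)}
    {τ : G K → ℂ} {r : G K} {ψs : ℕ → G K → ℂ} {ψ : G K → ℂ}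
    (hψs : ∀ k, IsCuspT 𝔫 τ r (ψs k))
    (hu : TendstoUniformly ψs ψ Filter.atTop) : IsCuspT 𝔫 τ r ψ := by
  have haut : IsAutT 𝔫 τ r ψ := isAutT_of_tendstoUniformly_h799 (fun k => (hψs k).aut) hu
  have hunif : ∀ ε > 0, ∃ N : ℕ, ∀ k ≥ N, ∀ x : G K, ‖ψ x - ψs k x‖ < ε := by
    intro ε hε
    have := (Metric.tendstoUniformly_iff.1 hu) ε hε
    obtain ⟨N, hN⟩ := Filter.eventually_atTop.1 this
    exact ⟨N, fun k hk x => by simpa [dist_eq_norm] using hN k hk x⟩
  refine ⟨haut, ?_⟩
  rw [isCuspidalFn_iff_h799]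
  intro μ hμ D hD n hn g
  have hfin : μ D < ⊤ := addFundDom_measure_lt_top_h799 hFD μ hμ D hD
  have hI : IntegrableOn (fun x => ψ (n x * g)) D μ :=
    integrableOn_constTerm_h799 hFD haut.cont haut.bdd μ hμ D hD n hn g
  have hle : ∀ ε > 0, ‖∫ x in D, ψ (n x * g) ∂μ‖ ≤ ε * μ.real D := by
    intro ε hε
    obtain ⟨N, hN⟩ := hunif ε hε
    have hIN : IntegrableOn (fun x => ψs N (n x * g)) D μ :=
      integrableOn_constTerm_h799 hFD (hψs N).aut.cont (hψs N).aut.bdd μ hμ D hD n hn g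
    have h0 : ∫ x in D, ψs N (n x * g) ∂μ = 0 :=
      (isCuspidalFn_iff_h799 _).1 (hψs N).cuspidal μ hμ D hD n hn g
    have hEq : ∫ x in D, ψ (n x * g) ∂μ
        = ∫ x in D, (ψ (n x * g) - ψs N (n x * g)) ∂μ := by
      rw [integral_sub hI hIN, h0, sub_zero]
    rw [hEq]
    exact norm_setIntegral_le_of_norm_le_const hfin fun x _ => (hN N le_rfl _).le
  by_contra hne
  have hpos : 0 < ‖∫ x in D, ψ (n x * g) ∂μ‖ := norm_pos_iff.2 hne
  set I := ‖∫ x in D, ψ (n x * g) ∂μ‖ with hIdef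
  have hreal : 0 ≤ μ.real D := measureReal_nonneg
  have := hle (I / (2 * (μ.real D + 1))) (by positivity)
  have h2 : I / (2 * (μ.real D + 1)) * μ.real D ≤ I / 2 := by
    rw [div_mul_eq_mul_div, div_le_div_iff₀ (by positivity) (by norm_num)]
    nlinarith
  linarith

/-- **Core of T2.25**: for ONE class `(𝔫, τ, r)` and ONE frame, from the third component of
`ConvCuspT` and the estimate of `GPST` for the test function `f`. -/
theorem convRegularT_core_h799 (hFD : T1.AddFundDomC K) {𝔫 : Ideal (𝓞 K)} {τ : G K → ℂ}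
    (R : FrameR K) {f : G K → ℂ} (hf : IsTestT 𝔫 τ f)
    (hconv : ∀ φ : G K → ℂ, IsCuspT 𝔫 τ R.r φ → IsCuspT 𝔫 τ R.r (conv R.F f φ))
    {C : ℝ} (hC' : ∀ φ : G K → ℂ, IsCuspT 𝔫 τ R.r φ →
      ∀ x : G K, ‖conv R.F f φ x‖ ≤ C * Real.sqrt (nsq R.F φ))
    (φ : ℕ → G K → ℂ) (hφ : ∀ k, IsCuspT 𝔫 τ R.r (φ k))
    (hcauchy : ∀ ε : ℝ, 0 < ε → ∃ N : ℕ, ∀ k ≥ N, ∀ l ≥ N,
      nsq R.F (fun g => φ k g - φ l g) < ε) :
    ∃ ψ : G K → ℂ, IsCuspT 𝔫 τ R.r ψ ∧
      Filter.Tendsto (fun k => nsq R.F (fun g => conv R.F f (φ k) g - ψ g)) Filter.atTop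
        (nhds 0) := by
  set F : Frame K := R.F with hFdef
  have hψs : ∀ k, IsCuspT 𝔫 τ R.r (conv F f (φ k)) := fun k => hconv (φ k) (hφ k)
  -- uniform Cauchy
  have key : ∀ ε > 0, ∃ N : ℕ, ∀ k ≥ N, ∀ l ≥ N, ∀ x : G K,
      ‖conv F f (φ k) x - conv F f (φ l) x‖ ≤ ε := by
    intro ε hε
    set M : ℝ := max C 0 + 1 with hM
    have hMpos : 0 < M := by positivity
    obtain ⟨N, hN⟩ := hcauchy ((ε / M) ^ 2) (by positivity)
    refine ⟨N, fun k hk l hl x => ?_⟩
    have hsub : IsCuspT 𝔫 τ R.r (fun g => φ k g - φ l g) := isCuspT_sub_h799 hFD (hφ k) (hφ l)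
    have h1 := hC' _ hsub x
    rw [convT_sub_h799 F hf (hφ k).aut.cont (hφ l).aut.cont x] at h1
    have h2 : Real.sqrt (nsq F fun g => φ k g - φ l g) ≤ ε / M := by
      rw [Real.sqrt_le_left (by positivity)]
      exact (hN k hk l hl).le
    have h3 : 0 ≤ Real.sqrt (nsq F fun g => φ k g - φ l g) := Real.sqrt_nonneg _
    calc ‖conv F f (φ k) x - conv F f (φ l) x‖
        ≤ C * Real.sqrt (nsq F fun g => φ k g - φ l g) := h1
      _ ≤ M * Real.sqrt (nsq F fun g => φ k g - φ l g) :=
          mul_le_mul_of_nonneg_right (by rw [hM]; linarith [le_max_left C 0]) h3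
      _ ≤ M * (ε / M) := mul_le_mul_of_nonneg_left h2 hMpos.le
      _ = ε := by field_simp
  -- pointwise limits
  have hcs : ∀ x : G K, CauchySeq fun k => conv F f (φ k) x := by
    intro x
    rw [Metric.cauchySeq_iff']
    intro ε hε
    obtain ⟨N, hN⟩ := key (ε / 2) (by positivity)
    refine ⟨N, fun k hk => ?_⟩
    rw [dist_eq_norm]
    exact (hN k hk N le_rfl x).trans_lt (by linarith)
  choose ψ hψ using fun x => cauchySeq_tendsto_of_complete (hcs x)
  have hunif : ∀ ε > 0, ∃ N : ℕ, ∀ k ≥ N, ∀ x : G K, ‖conv F f (φ k) x - ψ x‖ ≤ ε := by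
    intro ε hε
    obtain ⟨N, hN⟩ := key ε hε
    refine ⟨N, fun k hk x => ?_⟩
    have ht : Filter.Tendsto (fun l => ‖conv F f (φ k) x - conv F f (φ l) x‖) Filter.atTop
        (nhds ‖conv F f (φ k) x - ψ x‖) :=
      (tendsto_const_nhds.sub (hψ x)).norm
    refine le_of_tendsto ht ?_
    filter_upwards [Filter.eventually_ge_atTop N] with l hl
    exact hN k hk l hl x
  have hTU : TendstoUniformly (fun k => conv F f (φ k)) ψ Filter.atTop := by
    rw [Metric.tendstoUniformly_iff]
    intro ε hε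
    obtain ⟨N, hN⟩ := hunif (ε / 2) (by positivity)
    filter_upwards [Filter.eventually_ge_atTop N] with k hk x
    rw [dist_comm, dist_eq_norm]
    exact (hN k hk x).trans_lt (by linarith)
  refine ⟨ψ, isCuspT_of_tendstoUniformly_h799 hFD hψs hTU, ?_⟩
  rw [Metric.tendsto_atTop]
  intro η hη
  have hreal : 0 ≤ F.μ.real F.D := measureReal_nonneg
  set ε : ℝ := min 1 (η / (2 * (F.μ.real F.D + 1))) with hε
  have hεpos : 0 < ε := lt_min one_pos (by positivity)
  obtain ⟨N, hN⟩ := hunif ε hεpos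
  refine ⟨N, fun k hk => ?_⟩
  rw [Real.dist_eq, sub_zero]
  refine (abs_nsqT_le_h799 F (hN k hk)).trans_lt ?_
  have h1 : ε ≤ 1 := min_le_left _ _
  have h2 : ε ≤ η / (2 * (F.μ.real F.D + 1)) := min_le_right _ _
  have h3 : ε * ε * F.μ.real F.D ≤ ε * F.μ.real F.D := by
    have : ε * ε ≤ ε := by nlinarith
    exact mul_le_mul_of_nonneg_right this hreal
  have h4 : ε * F.μ.real F.D ≤ η / (2 * (F.μ.real F.D + 1)) * F.μ.real F.D :=
    mul_le_mul_of_nonneg_right h2 hreal
  have h5 : η / (2 * (F.μ.real F.D + 1)) * F.μ.real F.D ≤ η / 2 := by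
    rw [div_mul_eq_mul_div, div_le_div_iff₀ (by positivity) (by norm_num)]
    nlinarith
  linarith

/-- **Leaf T2.25**: `GPST ⇒ ConvRegularT` (the `T`-form of T2.05), VERBATIM `T2.LeafT05 K`. -/
theorem leafT05_h799 (K : Type) [Field K] [NumberField K] : LeafT05 K := by
  intro hT1 𝔫 τ _ _ _ hC hG R f hf φ hφ hcauchy
  obtain ⟨C, hC'⟩ := hG R f hf
  exact convRegularT_core_h799 hT1.addFundDom R hf
    (fun ψ hψ => (hC R).2.2.1 f ψ hf hψ) hC' φ hφ hcauchy

end Fermat.Agent.LT.T2.H799
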